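import Fermat.Agent.A2.Spec
import Fermat.Agent.A2.H129.KummerJZero
import Fermat.Agent.S18.H876.Degree

/-!
# A2 / D2 : auxiliary-level descent of the Kummer form of the wall (helper876)

For `N ∣ M` with `[F̄_M : F̄_N]` prime to `m` the Kummer form of wall A2 descends from level `M`
to level `N`:

* `kummerTarget_descend_of_coprime`, `kummerTarget_descend_of_psi`, `kummerTarget_descend_prime`
  for `Spec.KummerTarget`;
* `a2Kummer_descend_of_coprime`, `a2Kummer_descend_of_psi`, `a2Kummer_descend_prime`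
  for `H129.A2Kummer` (one `σ`).

Consequence (`auxLevel`): for `q ∈ {2, 3}` the MODEL may assume that the good-reduction level
`N / q` is divisible by `3` resp. `2` (existence of the S18 coordinates `t₃`, `t₂`):

* `kummerTarget_aux`, `a2Kummer_aux` : level `auxLevel N q` ⟹ level `N` (`q ∤ m`);
* `kummerTarget_of_ready` : `KummerTarget` at all *ready* levels ⟹ `KummerTarget` everywhere.

Ingredients: restriction of places (`Place.ord_restrict`), the norm trick over the algebraically
closed constant field (`S18.H876.exists_algebraMap_eq_of_pow_eq`), and the degree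
`ψ(N) · [F̄_M : F̄_N] = ψ(M)` (`S18.H876.psi_mul_finrank`, from landed S24).
-/

set_option autoImplicit false
set_option linter.style.haveILetI false

noncomputable section

namespace Fermat.Agent.A2.H876

open ModularCurve AlgebraicCurve HahnSeries
open Fermat.Agent.S18.H876 (barIncl coe_barIncl barIncl_injective barAlgebra
  barAlgebra_isScalarTower exists_algebraMap_eq_of_pow_eq psi_mul_finrank finite_bar
  dedekindPsi_pos')

/-! ### The tower `F̄_N ⊆ F̄_M` -/

section Tower

variable {N M : ℕ} [NeZero N] [NeZero M]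

/-- The arithmetic Galois action commutes with the inclusion `F̄_N ⊆ F̄_M`. -/
theorem act_barIncl (h : N ∣ M) (τ : AlgebraicClosure ℚ ≃ₐ[ℚ] AlgebraicClosure ℚ)
    (f : modularFunctionFieldBar N) :
    arithmeticRingAut (modularFunctionFieldFull M) τ (barIncl h f) =
      barIncl h (arithmeticRingAut (modularFunctionFieldFull N) τ f) := by
  apply Subtype.ext
  rw [coe_barIncl, coe_arithmeticRingAut_apply, coe_arithmeticRingAut_apply, coe_barIncl]

/-- `m ∣ div f` passes from `F̄_N` to `F̄_M`. -/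
theorem dvd_ord_barIncl (h : N ∣ M) (m : ℤ) (f : modularFunctionFieldBar N)
    (hdiv : ∀ v : Place (AlgebraicClosure ℚ) (modularFunctionFieldBar N), m ∣ v.ord f)
    (w : Place (AlgebraicClosure ℚ) (modularFunctionFieldBar M)) :
    m ∣ w.ord (barIncl h f) := by
  letI := barAlgebra h
  haveI := barAlgebra_isScalarTower h
  haveI : FiniteDimensional (modularFunctionFieldBar N) (modularFunctionFieldBar M) :=
    finite_bar h
  haveI : Algebra.IsIntegral (modularFunctionFieldBar N) (modularFunctionFieldBar M) :=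
    Algebra.IsIntegral.of_finite _ _
  have h1 : w.ord (algebraMap (modularFunctionFieldBar N) (modularFunctionFieldBar M) f)
      = _ := w.ord_restrict f
  have h2 : algebraMap (modularFunctionFieldBar N) (modularFunctionFieldBar M) f = barIncl h f :=
    rfl
  rw [← h2, h1]
  exact Dvd.dvd.mul_left (hdiv (w.restrict (modularFunctionFieldBar N))) _

/-- Kummer descent along `F̄_N ⊆ F̄_M`: an element of `F̄_M` whose `m`-th power lies in `F̄_N`
lies in `F̄_N`, if `[F̄_M : F̄_N]` is prime to `m`. -/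
theorem exists_barIncl_eq_of_pow_eq (h : N ∣ M) (m : ℕ) (hm : 0 < m)
    (hcop : (@Module.finrank (modularFunctionFieldBar N) (modularFunctionFieldBar M) _ _
      (barAlgebra h).toModule).Coprime m)
    (y : modularFunctionFieldBar M) (e : modularFunctionFieldBar N)
    (hy : y ^ m = barIncl h e) : ∃ x : modularFunctionFieldBar N, barIncl h x = y := by
  letI := barAlgebra h
  haveI := barAlgebra_isScalarTower h
  haveI : FiniteDimensional (modularFunctionFieldBar N) (modularFunctionFieldBar M) :=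
    finite_bar h
  exact exists_algebraMap_eq_of_pow_eq (K := AlgebraicClosure ℚ) m hm hcop y e hy

end Tower

/-! ### Descent of `KummerTarget` -/

/-- **D2 for `KummerTarget`, degree as hypothesis.** -/
theorem kummerTarget_descend_of_coprime {N M : ℕ} [NeZero N] [NeZero M] (h : N ∣ M) (q m : ℕ)
    (hcop : (@Module.finrank (modularFunctionFieldBar N) (modularFunctionFieldBar M) _ _
      (barAlgebra h).toModule).Coprime m)
    (hM : KummerTarget M q m) : KummerTarget N q m := by
  intro P hP τ hτ f hf hdiv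
  have hinj := barIncl_injective h
  have hf' : barIncl h f ≠ 0 := fun h0 => hf (hinj (by rw [h0, map_zero]))
  obtain ⟨y, hy0, hy⟩ := hM P hP τ hτ (barIncl h f) hf'
    (fun w => dvd_ord_barIncl h (m : ℤ) f hdiv w)
  rw [act, act_barIncl, act_barIncl] at hy
  set g : modularFunctionFieldBar N := arithmeticRingAut (modularFunctionFieldFull N) τ f with hg
  set g2 : modularFunctionFieldBar N :=
    arithmeticRingAut (modularFunctionFieldFull N) τ g with hg2
  have hg0 : g ≠ 0 := fun h0 => hf ((arithmeticRingAut (modularFunctionFieldFull N) τ).injective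
    (by rw [← hg, h0, map_zero]))
  have hg0' : barIncl h g ≠ 0 := fun h0 => hg0 (hinj (by rw [h0, map_zero]))
  rcases Nat.eq_zero_or_pos m with hm0 | hmpos
  · subst hm0
    refine ⟨1, one_ne_zero, ?_⟩
    apply hinj
    rw [pow_zero, one_mul] at hy ⊢
    rw [map_mul, map_pow]
    exact hy
  · have hym : y ^ m = barIncl h (g2 * f / g ^ 2) := by
      rw [map_div₀, map_mul, map_pow, hy]
      field_simp
    obtain ⟨x, hx⟩ := exists_barIncl_eq_of_pow_eq h m hmpos hcop y _ hym
    refine ⟨x, ?_, ?_⟩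
    · rintro rfl
      exact hy0 (by rw [← hx, map_zero])
    · apply hinj
      rw [map_mul, map_mul, map_pow, map_pow, hx]
      exact hy

/-- The degree `[F̄_M : F̄_N]` from `ψ(M) = d · ψ(N)`. -/
theorem finrank_bar_eq_of_psi {N M : ℕ} [NeZero N] [NeZero M] (h : N ∣ M) (d : ℕ)
    (hd : dedekindPsi M = d * dedekindPsi N) :
    @Module.finrank (modularFunctionFieldBar N) (modularFunctionFieldBar M) _ _
      (barAlgebra h).toModule = d := by
  have h1 := psi_mul_finrank h
  have h2 := dedekindPsi_pos' N (NeZero.ne N)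
  rw [hd, mul_comm] at h1
  exact Nat.eq_of_mul_eq_mul_right h2 h1

/-- **D2 for `KummerTarget`, general form**: `N ∣ M`, `ψ(M) = d · ψ(N)`, `gcd(d, m) = 1`. -/
theorem kummerTarget_descend_of_psi {N M : ℕ} [NeZero N] [NeZero M] (h : N ∣ M) (q m d : ℕ)
    (hd : dedekindPsi M = d * dedekindPsi N) (hcop : d.Coprime m)
    (hM : KummerTarget M q m) : KummerTarget N q m := by
  refine kummerTarget_descend_of_coprime h q m ?_ hM
  rw [finrank_bar_eq_of_psi h d hd]
  exact hcop

/-- **D2 for `KummerTarget`, prime form**: `r ∤ N` prime, `gcd(r + 1, m) = 1`. -/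
theorem kummerTarget_descend_prime {N : ℕ} [NeZero N] (r : ℕ) (hr : r.Prime) (hrN : ¬ r ∣ N)
    (q m : ℕ) (hcop : (r + 1).Coprime m) (hM : KummerTarget (r * N) q m) :
    KummerTarget N q m := by
  haveI : NeZero (r * N) := ⟨mul_ne_zero hr.ne_zero (NeZero.ne N)⟩
  exact kummerTarget_descend_of_psi (Dvd.intro_left r rfl) q m (r + 1)
    (Fermat.Agent.S20.Comb694.dedekindPsi_prime_mul_of_not_dvd r N hr (NeZero.ne N) hrN) hcop hM

/-! ### Descent of `H129.A2Kummer` -/

/-- `tauSubOne` commutes with the inclusion `F̄_N ⊆ F̄_M`. -/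
theorem tauSubOne_barIncl {N M : ℕ} [NeZero N] [NeZero M] (h : N ∣ M)
    (σ : AlgebraicClosure ℚ ≃ₐ[ℚ] AlgebraicClosure ℚ) (f : modularFunctionFieldBar N) :
    H129.tauSubOne (arithmeticRingAut (modularFunctionFieldFull M) σ) (barIncl h f) =
      barIncl h (H129.tauSubOne (arithmeticRingAut (modularFunctionFieldFull N) σ) f) := by
  unfold H129.tauSubOne
  rw [act_barIncl, map_mul, map_inv₀]

/-- **D2 for `A2Kummer`, degree as hypothesis.** -/
theorem a2Kummer_descend_of_coprime {N M : ℕ} [NeZero N] [NeZero M] (h : N ∣ M) (m : ℕ)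
    (hm : 0 < m) (σ : AlgebraicClosure ℚ ≃ₐ[ℚ] AlgebraicClosure ℚ)
    (hcop : (@Module.finrank (modularFunctionFieldBar N) (modularFunctionFieldBar M) _ _
      (barAlgebra h).toModule).Coprime m)
    (hM : H129.A2Kummer M m σ) : H129.A2Kummer N m σ := by
  intro f hf hdiv
  have hinj := barIncl_injective h
  have hf' : barIncl h f ≠ 0 := fun h0 => hf (hinj (by rw [h0, map_zero]))
  obtain ⟨y, c, hc, hy⟩ := hM (barIncl h f) hf' (fun w => dvd_ord_barIncl h (m : ℤ) f hdiv w)
  rw [toRingAut_arithmeticGalois, tauSubOne_barIncl, tauSubOne_barIncl] at hy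
  rw [toRingAut_arithmeticGalois]
  set u : modularFunctionFieldBar N :=
    H129.tauSubOne (arithmeticRingAut (modularFunctionFieldFull N) σ)
      (H129.tauSubOne (arithmeticRingAut (modularFunctionFieldFull N) σ) f) with hu
  have hc' : algebraMap (AlgebraicClosure ℚ) (modularFunctionFieldBar M) c ≠ 0 := by
    simpa using hc
  have hym : y ^ m =
      barIncl h (u / algebraMap (AlgebraicClosure ℚ) (modularFunctionFieldBar N) c) := by
    rw [map_div₀, AlgHom.commutes, hy]
    field_simp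
  obtain ⟨x, hx⟩ := exists_barIncl_eq_of_pow_eq h m hm hcop y _ hym
  refine ⟨x, c, hc, ?_⟩
  apply hinj
  rw [map_mul, map_pow, hx, AlgHom.commutes]
  exact hy

/-- **D2 for `A2Kummer`, general form.** -/
theorem a2Kummer_descend_of_psi {N M : ℕ} [NeZero N] [NeZero M] (h : N ∣ M) (m d : ℕ)
    (hm : 0 < m) (σ : AlgebraicClosure ℚ ≃ₐ[ℚ] AlgebraicClosure ℚ)
    (hd : dedekindPsi M = d * dedekindPsi N) (hcop : d.Coprime m)
    (hM : H129.A2Kummer M m σ) : H129.A2Kummer N m σ := by
  refine a2Kummer_descend_of_coprime h m hm σ ?_ hM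
  rw [finrank_bar_eq_of_psi h d hd]
  exact hcop

/-- **D2 for `A2Kummer`, prime form.** -/
theorem a2Kummer_descend_prime {N : ℕ} [NeZero N] (r : ℕ) (hr : r.Prime) (hrN : ¬ r ∣ N)
    (m : ℕ) (hm : 0 < m) (σ : AlgebraicClosure ℚ ≃ₐ[ℚ] AlgebraicClosure ℚ)
    (hcop : (r + 1).Coprime m) (hM : H129.A2Kummer (r * N) m σ) : H129.A2Kummer N m σ := by
  haveI : NeZero (r * N) := ⟨mul_ne_zero hr.ne_zero (NeZero.ne N)⟩
  exact a2Kummer_descend_of_psi (Dvd.intro_left r rfl) m (r + 1) hm σ
    (Fermat.Agent.S20.Comb694.dedekindPsi_prime_mul_of_not_dvd r N hr (NeZero.ne N) hrN) hcop hM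

/-! ### The auxiliary level -/

/-- The auxiliary level: `lcm N 2` for `q = 3`, `lcm N 3` for `q = 2`, `N` otherwise. -/
def auxLevel (N q : ℕ) : ℕ :=
  if q = 3 then Nat.lcm N 2 else if q = 2 then Nat.lcm N 3 else N

/-- A level is *ready* for `q`: the S18 coordinate exists on the good-reduction level `N / q`
(`q ≥ 5`: `j`; `q = 3`: `t₂`, needs `2 ∣ N`; `q = 2`: `t₃`, needs `3 ∣ N`). -/
def Ready (N q : ℕ) : Prop :=
  (q ≠ 2 ∧ q ≠ 3) ∨ (q = 3 ∧ 2 ∣ N) ∨ (q = 2 ∧ 3 ∣ N)

theorem dvd_auxLevel (N q : ℕ) : N ∣ auxLevel N q := by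
  unfold auxLevel
  split_ifs
  · exact Nat.dvd_lcm_left N 2
  · exact Nat.dvd_lcm_left N 3
  · exact dvd_rfl

theorem auxLevel_ne_zero {N : ℕ} (hN : N ≠ 0) (q : ℕ) : auxLevel N q ≠ 0 := by
  unfold auxLevel
  split_ifs
  · exact Nat.lcm_ne_zero hN (by norm_num)
  · exact Nat.lcm_ne_zero hN (by norm_num)
  · exact hN

theorem ready_auxLevel (N q : ℕ) : Ready (auxLevel N q) q := by
  unfold auxLevel Ready
  split_ifs with h3 h2
  · exact Or.inr (Or.inl ⟨h3, Nat.dvd_lcm_right N 2⟩)
  · exact Or.inr (Or.inr ⟨h2, Nat.dvd_lcm_right N 3⟩)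
  · exact Or.inl ⟨h2, h3⟩

theorem auxLevel_of_ready {N q : ℕ} (h : Ready N q) : auxLevel N q = N := by
  unfold auxLevel
  rcases h with ⟨h2, h3⟩ | ⟨h3, hd⟩ | ⟨h2, hd⟩
  · rw [if_neg h3, if_neg h2]
  · rw [if_pos h3, Nat.lcm_eq_left hd]
  · subst h2
    rw [if_neg (by norm_num), if_pos rfl, Nat.lcm_eq_left hd]

theorem dvd_auxLevel_of_dvd {N q : ℕ} (h : q ∣ N) : q ∣ auxLevel N q :=
  h.trans (dvd_auxLevel N q)

/-- `q ‖ N` is preserved by passing to the auxiliary level. -/
theorem not_sq_dvd_auxLevel {N q : ℕ} (hq : q.Prime) (h : ¬ q ^ 2 ∣ N) :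
    ¬ q ^ 2 ∣ auxLevel N q := by
  unfold auxLevel
  split_ifs with h3 h2
  · subst h3
    intro hd
    have h1 : Nat.lcm N 2 ∣ N * 2 := Nat.lcm_dvd_mul N 2
    have h4 : (3 ^ 2).Coprime 2 := by norm_num
    exact h (h4.dvd_of_dvd_mul_right (hd.trans h1))
  · subst h2
    intro hd
    have h1 : Nat.lcm N 3 ∣ N * 3 := Nat.lcm_dvd_mul N 3
    have h4 : (2 ^ 2).Coprime 3 := by norm_num
    exact h (h4.dvd_of_dvd_mul_right (hd.trans h1))
  · exact h

/-- **D2, node form for `KummerTarget`.** -/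
theorem kummerTarget_aux (N : ℕ) [NeZero N] (q m : ℕ) (hm : ¬ q ∣ m) :
    KummerTarget (auxLevel N q) q m → KummerTarget N q m := by
  unfold auxLevel
  split_ifs with h3 h2
  · subst h3
    by_cases h : 2 ∣ N
    · rw [Nat.lcm_eq_left h]
      exact id
    · have hcop : Nat.Coprime N 2 :=
        (Nat.coprime_comm.1 ((Nat.Prime.coprime_iff_not_dvd Nat.prime_two).2 h))
      rw [hcop.lcm_eq_mul, mul_comm]
      refine kummerTarget_descend_prime 2 Nat.prime_two h 3 m ?_
      exact (Nat.Prime.coprime_iff_not_dvd Nat.prime_three).2 hm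
  · subst h2
    by_cases h : 3 ∣ N
    · rw [Nat.lcm_eq_left h]
      exact id
    · have hcop : Nat.Coprime N 3 :=
        (Nat.coprime_comm.1 ((Nat.Prime.coprime_iff_not_dvd Nat.prime_three).2 h))
      rw [hcop.lcm_eq_mul, mul_comm]
      refine kummerTarget_descend_prime 3 Nat.prime_three h 2 m ?_
      have h2m : Nat.Coprime 2 m := (Nat.Prime.coprime_iff_not_dvd Nat.prime_two).2 hm
      exact Nat.Coprime.pow_left 2 h2m
  · exact id

/-- **D2, node form for `A2Kummer`.** -/
theorem a2Kummer_aux (N : ℕ) [NeZero N] (q m : ℕ) (hm0 : 0 < m) (hm : ¬ q ∣ m)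
    (σ : AlgebraicClosure ℚ ≃ₐ[ℚ] AlgebraicClosure ℚ) :
    H129.A2Kummer (auxLevel N q) m σ → H129.A2Kummer N m σ := by
  unfold auxLevel
  split_ifs with h3 h2
  · subst h3
    by_cases h : 2 ∣ N
    · rw [Nat.lcm_eq_left h]
      exact id
    · have hcop : Nat.Coprime N 2 :=
        (Nat.coprime_comm.1 ((Nat.Prime.coprime_iff_not_dvd Nat.prime_two).2 h))
      rw [hcop.lcm_eq_mul, mul_comm]
      refine a2Kummer_descend_prime 2 Nat.prime_two h m hm0 σ ?_
      exact (Nat.Prime.coprime_iff_not_dvd Nat.prime_three).2 hm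
  · subst h2
    by_cases h : 3 ∣ N
    · rw [Nat.lcm_eq_left h]
      exact id
    · have hcop : Nat.Coprime N 3 :=
        (Nat.coprime_comm.1 ((Nat.Prime.coprime_iff_not_dvd Nat.prime_three).2 h))
      rw [hcop.lcm_eq_mul, mul_comm]
      refine a2Kummer_descend_prime 3 Nat.prime_three h m hm0 σ ?_
      have h2m : Nat.Coprime 2 m := (Nat.Prime.coprime_iff_not_dvd Nat.prime_two).2 hm
      exact Nat.Coprime.pow_left 2 h2m
  · exact id

/-- **Reduction to ready levels.**  If the Kummer form of the wall holds at all levels `N'` with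
`q ‖ N'` that are ready for `q`, it holds at all levels `N` with `q ‖ N`. -/
theorem kummerTarget_of_ready (q m : ℕ) (hq : q.Prime) (hm : ¬ q ∣ m)
    (hready : ∀ N' : ℕ, q ∣ N' → ¬ q ^ 2 ∣ N' → N' ≠ 0 → Ready N' q → KummerTarget N' q m)
    (N : ℕ) (hqN : q ∣ N) (hq2 : ¬ q ^ 2 ∣ N) (hN : N ≠ 0) : KummerTarget N q m := by
  haveI : NeZero N := ⟨hN⟩
  exact kummerTarget_aux N q m hm
    (hready (auxLevel N q) (dvd_auxLevel_of_dvd hqN) (not_sq_dvd_auxLevel hq hq2)
      (auxLevel_ne_zero hN q) (ready_auxLevel N q))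

/-- **Reduction to ready levels**, `A2Kummer` form (all inertia groups at `q`). -/
theorem a2Kummer_of_ready (q m : ℕ) (hq : q.Prime) (hm0 : 0 < m) (hm : ¬ q ∣ m)
    (hready : ∀ N' : ℕ, q ∣ N' → ¬ q ^ 2 ∣ N' → N' ≠ 0 → Ready N' q →
      ∀ P : ValuationSubring (AlgebraicClosure ℚ), P.LiesOverPrime q →
        ∀ σ ∈ P.inertiaSubgroupIn ℚ, H129.A2Kummer N' m σ)
    (N : ℕ) (hqN : q ∣ N) (hq2 : ¬ q ^ 2 ∣ N) (hN : N ≠ 0)
    (P : ValuationSubring (AlgebraicClosure ℚ)) (hP : P.LiesOverPrime q)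
    (σ : AlgebraicClosure ℚ ≃ₐ[ℚ] AlgebraicClosure ℚ) (hσ : σ ∈ P.inertiaSubgroupIn ℚ) :
    H129.A2Kummer N m σ := by
  haveI : NeZero N := ⟨hN⟩
  exact a2Kummer_aux N q m hm0 hm σ
    (hready (auxLevel N q) (dvd_auxLevel_of_dvd hqN) (not_sq_dvd_auxLevel hq hq2)
      (auxLevel_ne_zero hN q) (ready_auxLevel N q) P hP σ hσ)

end Fermat.Agent.A2.H876
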