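import Fermat.Agent.A2.Top.H994.Wall
import Fermat.Agent.A2.H876.D2

/-!
# A2 / D2 in the exact shape of `Top.H994.Wall` (helper876)

* `d2Statement : Top.H994.D2Statement` (verbatim; discharges the hypothesis `hD2` of
  `Top.H994.kummerTarget_all` and `Top.H994.wall`);
* `kummerTarget_all`, `wall` : the same theorems with `hD2` removed:
  `AlgSSStatement → IFStatement → ModSSGoodStatement → Target N q m` for all `q ‖ N`, `q ∤ m`.
-/

set_option autoImplicit false
set_option linter.style.haveILetI false

noncomputable section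

namespace Fermat.Agent.A2.H876

open Fermat.Agent.A2 Fermat.Agent.A2.Top.H994

/-- **D2**, verbatim statement of `Top.H994.Wall`. -/
theorem d2Statement : D2Statement := by
  intro N q m _hq _hqN _hq2 hN _hm hqm h
  haveI : NeZero N := ⟨hN⟩
  exact kummerTarget_aux N q m hqm h

/-- The Kummer form of the wall for all `q`, from ALG, IF and MOD at the ready levels. -/
theorem kummerTarget_all (hALG : AlgSSStatement) (hIF : IFStatement)
    (hMOD : ModSSGoodStatement)
    (N q m : ℕ) (hq : q.Prime) (hqN : q ∣ N) (hq2 : ¬ q ^ 2 ∣ N) (hN : N ≠ 0) (hm : 0 < m)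
    (hqm : ¬ q ∣ m) : KummerTarget N q m :=
  Top.H994.kummerTarget_all hALG hIF hMOD d2Statement N q m hq hqN hq2 hN hm hqm

/-- **The wall A2 for all `q`**, from ALG, IF and MOD at the ready levels. -/
theorem wall (hALG : AlgSSStatement) (hIF : IFStatement) (hMOD : ModSSGoodStatement)
    (N q m : ℕ) (hq : q.Prime) (hqN : q ∣ N) (hq2 : ¬ q ^ 2 ∣ N) (hN : N ≠ 0) (hm : 0 < m)
    (hqm : ¬ q ∣ m) : Target N q m :=
  Top.H994.wall hALG hIF hMOD d2Statement N q m hq hqN hq2 hN hm hqm

end Fermat.Agent.A2.H876
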